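import Fermat.Agent.Jac.Chart.Locus
import Fermat.Agent.Jac.PicScheme
import Fermat.Agent.Jac.Final.Basic
import Fermat.Agent.Jac.AJ.PointClass

/-!
The translated big cell inside a Picard scheme: a nonempty open piece whose rational points are
effective of a fixed degree.
-/

set_option autoImplicit false
set_option linter.unusedVariables false

noncomputable section

open CategoryTheory CategoryTheory.Limits AlgebraicGeometry TopologicalSpace Opposite NeronModelInfra
open AlgebraicGeometry.RelPicard
open scoped TensorProduct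

attribute [local instance 2000] HahnSeries.instAlgebra

namespace Fermat.Agent.Jac

universe u

section Twist

variable {R : Type u} [CommRing R] {C : Scheme.{u}} (c : C ⟶ Spec (CommRingCat.of R))
  (ε : SchemeHomOver (𝟙 (Spec (CommRingCat.of R))) c) (N : Pic C)

/-- The constant family of a class of the curve. -/
def constRigid {T : Scheme.{u}} (t : T ⟶ Spec (CommRingCat.of R)) : rigidPic c ε t :=
  rigidify c ε t (Pic.map (pullback.fst c t) N)

theorem rigidPicMap_constRigid {T T' : Scheme.{u}} {t : T ⟶ Spec (CommRingCat.of R)}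
    {t' : T' ⟶ Spec (CommRingCat.of R)} (g : SchemeHomOver t' t) :
    rigidPicMap c ε g (constRigid c ε N t) = constRigid c ε N t' := by
  rw [constRigid, rigidPicMap_rigidify, Pic.map_map, baseChangeSnd_fst, constRigid]

theorem coe_constRigid_of_subsingleton {T : Scheme.{u}} [Subsingleton T]
    (t : T ⟶ Spec (CommRingCat.of R)) :
    (constRigid c ε N t : Pic (pullback c t)) = Pic.map (pullback.fst c t) N := by
  rw [constRigid, coe_rigidify,
    pic_eq_one_of_subsingleton (Pic.map (rigSection c t ε) _), map_one, div_one]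

end Twist

variable {k : Type u} [Field k] [IsAlgClosed k] {C : Scheme.{u}}
  {c : C ⟶ Spec (CommRingCat.of k)} [IsProper c] [SmoothOfRelativeDimension 1 c] [IsIntegral C]
  {ε : SchemeHomOver (𝟙 (Spec (CommRingCat.of k))) c}

/-- The translate of the big cell is a nonempty open piece with effective rational points. -/
theorem exists_effective_open_of_cells (M : CurveModel c ε) (J : PicScheme c ε)
    (htwist : ∃ (N : Pic C) (W : Expansion.Cell M.expansion k),
      HasCell M (Pic.map (pullback.fst c (specAlg k k)) N) W)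
    (hprod : ∃ g : ℕ, ∀ (ξ : Pic (curveOver c k)) (W : Expansion.Cell M.expansion k),
      HasCell M ξ W → ∃ x : Fin g → SchemeHomOver (𝟙 (Spec (CommRingCat.of k))) c,
        ξ = Pic.map (pullback.fst c (specAlg k k)) (∏ i, pointClass c (x i))) :
    ∃ (g : ℕ) (V : J.P.Opens), (V : Set J.P).Nonempty ∧
      ∀ a : SchemeHomOver (𝟙 (Spec (CommRingCat.of k))) J.toBase,
        Set.range a.1 ⊆ (V : Set J.P) →
        ∃ x : Fin g → SchemeHomOver (𝟙 (Spec (CommRingCat.of k))) c,
          (J.classOf a : Pic _) =
            Pic.map (pullback.fst c (𝟙 _)) (∏ i, pointClass c (x i) / pointClass c ε) := by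
  obtain ⟨g, hprod⟩ := hprod
  set E : Pic C := pointClass c ε ^ g with hE
  let η : rigidPic c ε J.toBase := J.univ * constRigid c ε E J.toBase
  have hη : ∀ {T : Scheme.{u}} {t : T ⟶ Spec (CommRingCat.of k)} (y : SchemeHomOver t J.toBase),
      rigidPicMap c ε y η = J.classOf y * constRigid c ε E t := fun y => by
    rw [map_mul, rigidPicMap_constRigid]
    rfl
  refine ⟨g, ⟨cellLocus M η, isOpen_cellLocus η⟩, ?_, fun a ha => ?_⟩
  · obtain ⟨N, W, hW⟩ := htwist
    let ζ : rigidPic c ε (specAlg k k) := ⟨_, hW.rigid⟩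
    refine ⟨(J.homOf (ζ / constRigid c ε E (specAlg k k))).1 (IsLocalRing.closedPoint k), ?_⟩
    change _ ∈ cellLocus M η
    rw [← hasPoint_field_point_iff, hη, PicScheme.classOf_homOf, div_mul_cancel,
      hasPoint_iff_hasCell]
    exact ⟨W, hW⟩
  · have hid : specAlg k k = 𝟙 (Spec (CommRingCat.of k)) := by
      unfold specAlg
      rw [Algebra.algebraMap_self]
      exact Spec.map_id _
    let y : SchemeHomOver (specAlg k k) J.toBase := RelPicard.postComp a (structOver _)
    have h1 : HasPoint M (specAlg k k) (rigidPicMap c ε y η) :=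
      (hasPoint_field_point_iff η y).mpr (ha ⟨(structOver (specAlg k k)).1 _, rfl⟩)
    obtain ⟨W, hW⟩ := (hasPoint_iff_hasCell M _).mp h1
    obtain ⟨x, hx⟩ := hprod _ W hW
    refine ⟨x, ?_⟩
    let u' : SchemeHomOver (𝟙 (Spec (CommRingCat.of k))) (specAlg k k) :=
      ⟨𝟙 _, by rw [hid, Category.comp_id]⟩
    have h2 := congrArg (Pic.map (baseChangeSnd c u')) hx
    rw [← coe_rigidPicMap, rigidPicMap_rigidPicMap, Pic.map_map, baseChangeSnd_fst] at h2
    have hy : RelPicard.postComp y u' = a := Subtype.ext (by
      change 𝟙 _ ≫ specAlg k k ≫ a.1 = a.1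
      rw [hid, Category.id_comp, Category.id_comp])
    rw [hy, hη, Subgroup.coe_mul, coe_constRigid_of_subsingleton] at h2
    rw [Finset.prod_div_distrib, Finset.prod_const, Finset.card_univ, Fintype.card_fin, map_div,
      ← hE, eq_div_iff_mul_eq']
    exact h2

end Fermat.Agent.Jac

end
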