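import Fermat.Agent.Jac.Chart.Effective
import Fermat.Agent.Jac.AJ.CellsCover
import Fermat.Agent.Jac.AJ.CellsCount
import Fermat.Agent.Jac.Final.Designation

/-!
Unconditional form of the effective open piece, and the Jacobian from a Picard scheme.
-/

set_option autoImplicit false
set_option linter.unusedVariables false

noncomputable section

open CategoryTheory CategoryTheory.Limits AlgebraicGeometry TopologicalSpace Opposite NeronModelInfra
open AlgebraicGeometry.RelPicard GoodReductionJacobian

namespace Fermat.Agent.Jac

universe u

variable {k : Type u} [Field k] [IsAlgClosed k] {C : Scheme.{u}}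
  {c : C ⟶ Spec (CommRingCat.of k)} [IsProper c] [SmoothOfRelativeDimension 1 c] [IsIntegral C]
  {ε : SchemeHomOver (𝟙 (Spec (CommRingCat.of k))) c}

/-- A nonempty open piece of the Picard scheme with effective rational points. -/
theorem exists_effective_open (M : CurveModel c ε) (J : PicScheme c ε) :
    ∃ (g : ℕ) (V : J.P.Opens), (V : Set J.P).Nonempty ∧
      ∀ a : SchemeHomOver (𝟙 (Spec (CommRingCat.of k))) J.toBase,
        Set.range a.1 ⊆ (V : Set J.P) →
        ∃ x : Fin g → SchemeHomOver (𝟙 (Spec (CommRingCat.of k))) c,
          (J.classOf a : Pic _) =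
            Pic.map (pullback.fst c (𝟙 _)) (∏ i, pointClass c (x i) / pointClass c ε) := by
  refine exists_effective_open_of_cells M J ?_ (exists_prod_pointClass M)
  obtain ⟨N, W, h⟩ := exists_twist_hasCell M k 1
  exact ⟨N, W, by rwa [one_mul] at h⟩

/-- The Jacobian from any Picard scheme. -/
theorem exists_designation (M : CurveModel c ε) (J : PicScheme c ε) :
    ∃ D : RelativePic0Designation k c,
      Nonempty (RepresentsRelSubPic c ε (algEquivZeroCut c ε) D) ∧
        Smooth D.toBase ∧ IsProper D.toBase ∧ GeometricallyConnected D.toBase := by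
  obtain ⟨g, V, hne, hpts⟩ := exists_effective_open M J
  exact exists_designation_of_picScheme M J g V hne hpts

end Fermat.Agent.Jac

end
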