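import Fermat.Agent.Jac.Chart.Point

/-!
The locus where a rigidified class comes from the big cell is open and classifies.
-/

set_option autoImplicit false
set_option linter.unusedVariables false

noncomputable section

open CategoryTheory CategoryTheory.Limits AlgebraicGeometry TopologicalSpace Opposite NeronModelInfra
open AlgebraicGeometry.RelPicard
open scoped TensorProduct

attribute [local instance 2000] HahnSeries.instAlgebra

namespace Fermat.Agent.Jac

universe u

variable {k : Type u} [Field k] {C : Scheme.{u}} {c : C ⟶ Spec (CommRingCat.of k)}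
  {ε : SchemeHomOver (𝟙 (Spec (CommRingCat.of k))) c} (M : CurveModel c ε)

theorem exists_algebra_eq_specAlg {A : CommRingCat.{u}} (t : Spec A ⟶ Spec (CommRingCat.of k)) :
    ∃ φ : k →+* A, t = Spec.map (CommRingCat.ofHom φ) := by
  obtain ⟨f, rfl⟩ := Spec.map_surjective t
  exact ⟨f.hom, rfl⟩

theorem hasPoint_congr {T : Scheme.{u}} {t t' : T ⟶ Spec (CommRingCat.of k)} (h : t = t')
    (η : rigidPic c ε t) (g : SchemeHomOver t' t) (hg : g.1 = 𝟙 T) :
    HasPoint M t' (rigidPicMap c ε g η) ↔ HasPoint M t η := by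
  subst h
  rw [rigidPicMap_id c ε g hg]

/-- A morphism to the big cell is determined by the class it pulls back. -/
theorem hasPoint_hom_unique {T : Scheme.{u}} {t : T ⟶ Spec (CommRingCat.of k)}
    {g g' : SchemeHomOver t (specAlg k M.BigCell)}
    (h : rigidPicMap c ε g M.cellClass = rigidPicMap c ε g' M.cellClass) : g = g' := by
  refine Subtype.ext (T.affineOpenCover.openCover.hom_ext _ _ fun i => ?_)
  obtain ⟨φ, hφ⟩ := exists_algebra_eq_specAlg (k := k) (T.affineOpenCover.f i ≫ t)
  let A : Type u := T.affineOpenCover.X i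
  let alg : Algebra k A := φ.toAlgebra
  let j : SchemeHomOver (specAlg k A) t := ⟨T.affineOpenCover.f i, hφ⟩
  have h1 := congrArg (rigidPicMap c ε j) h
  rw [rigidPicMap_rigidPicMap, rigidPicMap_rigidPicMap] at h1
  exact congrArg Subtype.val (hasPoint_hom_unique_affine M h1)

/-- Having a point in the big cell is local. -/
theorem hasPoint_of_cover {T : Scheme.{u}} {t : T ⟶ Spec (CommRingCat.of k)} (η : rigidPic c ε t)
    (𝓤 : T.OpenCover) (h : ∀ i, HasPoint M (𝓤.f i ≫ t) (rigidPicMap c ε ⟨𝓤.f i, rfl⟩ η)) :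
    HasPoint M t η := by
  choose g hg using h
  have hcompat : ∀ i j, pullback.fst (𝓤.f i) (𝓤.f j) ≫ (g i).1 =
      pullback.snd (𝓤.f i) (𝓤.f j) ≫ (g j).1 := by
    intro i j
    let z := pullback.fst (𝓤.f i) (𝓤.f j) ≫ 𝓤.f i ≫ t
    let p : SchemeHomOver z (𝓤.f i ≫ t) := ⟨pullback.fst _ _, rfl⟩
    let q : SchemeHomOver z (𝓤.f j ≫ t) := ⟨pullback.snd _ _, by
      simp only [z, ← Category.assoc, pullback.condition]⟩
    refine congrArg Subtype.val (hasPoint_hom_unique M (g := RelPicard.postComp (g i) p)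
      (g' := RelPicard.postComp (g j) q) ?_)
    rw [← rigidPicMap_rigidPicMap, ← rigidPicMap_rigidPicMap, hg, hg, rigidPicMap_rigidPicMap,
      rigidPicMap_rigidPicMap]
    exact congrFun (congrArg DFunLike.coe (rigidPicMap_congr c ε pullback.condition)) η
  let G : SchemeHomOver t (specAlg k M.BigCell) :=
    ⟨𝓤.glueMorphisms (fun i => (g i).1) hcompat, 𝓤.hom_ext _ _ fun i => by
      rw [← Category.assoc, 𝓤.ι_glueMorphisms]
      exact (g i).2⟩
  refine ⟨G, rigidPic_ext_of_openCover M (β := 𝓤.I₀) (Tβ := fun i => 𝓤.X i)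
    (tβ := fun i => 𝓤.f i ≫ t) (fun i => ⟨𝓤.f i, rfl⟩) (fun i => inferInstance)
    (fun p => ⟨_, 𝓤.covers p⟩) fun i => ?_⟩
  rw [rigidPicMap_rigidPicMap, ← hg i]
  exact congrFun (congrArg DFunLike.coe (rigidPicMap_congr c ε (𝓤.ι_glueMorphisms _ _ i))) _

/-- Having a point descends along field extensions. -/
theorem hasPoint_of_field {K K' : Type u} [Field K] [Algebra k K] [Field K'] [Algebra k K']
    (ξ : rigidPic c ε (specAlg k K)) (ψ : K →ₐ[k] K')
    (h : HasPoint M (specAlg k K') (rigidPicMap c ε (specAlgHom ψ) ξ)) :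
    HasPoint M (specAlg k K) ξ := by
  obtain ⟨ι, z, F, hz⟩ := exists_frame_of_rigid (M := M) ξ
  have h1 := (hasPoint_map_iff_polar ξ F hz ψ).mp h
  have h2 := Expansion.Lattice.polar_of_field (L := F.lattice) (AlgHom.id k K) ψ
    (by rwa [AlgHom.comp_id])
  have h3 := (hasPoint_map_iff_polar ξ F hz (AlgHom.id k K)).mpr h2
  rwa [rigidPicMap_id] at h3
  change Spec.map (CommRingCat.ofHom (RingHom.id K)) = 𝟙 _
  exact Spec.map_id _

variable {M} {T : Scheme.{u}} {t : T ⟶ Spec (CommRingCat.of k)}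

/-- The points at which a class comes from the big cell. -/
def cellLocus (M : CurveModel c ε) (η : rigidPic c ε t) : Set T :=
  {p | HasPoint M (T.fromSpecResidueField p ≫ t)
    (rigidPicMap c ε ⟨T.fromSpecResidueField p, rfl⟩ η)}

/-- Field-valued points detect the locus. -/
theorem hasPoint_field_point_iff (η : rigidPic c ε t) {K : Type u} [Field K] [Algebra k K]
    (y : SchemeHomOver (specAlg k K) t) :
    HasPoint M (specAlg k K) (rigidPicMap c ε y η) ↔
      y.1 (IsLocalRing.closedPoint K) ∈ cellLocus M η := by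
  obtain ⟨y, hy⟩ := y
  set p := y (IsLocalRing.closedPoint K)
  let f := T.descResidueField (Scheme.stalkClosedPointTo y)
  have hf : Spec.map f ≫ T.fromSpecResidueField p = y :=
    Scheme.descResidueField_stalkClosedPointTo_fromSpecResidueField K T y
  obtain ⟨φ, hφ⟩ := exists_algebra_eq_specAlg (k := k) (T.fromSpecResidueField p ≫ t)
  let alg : Algebra k (T.residueField p) := φ.toAlgebra
  let r : SchemeHomOver (specAlg k (T.residueField p)) t := ⟨T.fromSpecResidueField p, hφ⟩
  have hmem : p ∈ cellLocus M η ↔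
      HasPoint M (specAlg k (T.residueField p)) (rigidPicMap c ε r η) := by
    change HasPoint M _ _ ↔ _
    let gid : SchemeHomOver (specAlg k (T.residueField p)) (T.fromSpecResidueField p ≫ t) :=
      ⟨𝟙 _, (Category.id_comp _).trans hφ⟩
    rw [← hasPoint_congr M hφ _ gid rfl, rigidPicMap_rigidPicMap]
    exact Iff.of_eq (congrArg _ (congrFun (congrArg DFunLike.coe
      (rigidPicMap_congr c ε (Category.id_comp _))) η))
  let ψ' : SchemeHomOver (specAlg k K) (specAlg k (T.residueField p)) :=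
    ⟨Spec.map f, by
      exact (congrArg (Spec.map f ≫ ·) hφ.symm).trans
        ((Category.assoc _ _ _).symm.trans ((congrArg (· ≫ t) hf).trans hy))⟩
  obtain ⟨ψ, hψ⟩ := exists_specAlgHom_eq ψ'
  have he : rigidPicMap c ε (⟨y, hy⟩ : SchemeHomOver (specAlg k K) t) η =
      rigidPicMap c ε (specAlgHom ψ) (rigidPicMap c ε r η) := by
    rw [rigidPicMap_rigidPicMap, hψ]
    exact congrFun (congrArg DFunLike.coe (rigidPicMap_congr c ε hf.symm)) η
  rw [hmem, he]
  exact ⟨hasPoint_of_field M _ ψ, fun h => h.map _ _⟩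

/-- Over an affine base: a criterion at every prime. -/
theorem exists_locallyGood_of_mem {A : Type u} [CommRing A] [Algebra k A]
    (j : SchemeHomOver (specAlg k A) t) (η : rigidPic c ε t) {ι : Type u}
    {z : Cocycle (curveOver c A) ι} (F : Frame M z)
    (hz : Pic.mk z = (rigidPicMap c ε j η : Pic (curveOver c A))) (P : PrimeSpectrum A)
    (hP : j.1 P ∈ cellLocus M η) : ∃ a : A, a ∉ P.asIdeal ∧ F.lattice.LocallyGood a := by
  let φ : A →ₐ[k] P.asIdeal.ResidueField := IsScalarTower.toAlgHom k A _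
  have hpt : (specAlgHom φ).1 (IsLocalRing.closedPoint P.asIdeal.ResidueField) = P := by
    refine PrimeSpectrum.ext ?_
    change Ideal.comap (algebraMap A P.asIdeal.ResidueField)
      (IsLocalRing.maximalIdeal P.asIdeal.ResidueField) = P.asIdeal
    rw [show IsLocalRing.maximalIdeal P.asIdeal.ResidueField = ⊥ from
      IsLocalRing.isField_iff_maximalIdeal_eq.mp (Field.toIsField _)]
    exact Ideal.ker_algebraMap_residueField _
  have h := (hasPoint_field_point_iff (M := M) η (RelPicard.postComp j (specAlgHom φ))).mpr (by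
    change j.1 ((specAlgHom φ).1 _) ∈ _
    rw [hpt]
    exact hP)
  rw [← rigidPicMap_rigidPicMap, hasPoint_map_iff_polar _ F hz φ] at h
  obtain ⟨a, ha, hg⟩ := F.lattice.exists_locallyGood φ h
  exact ⟨a, fun hm => ha (Ideal.algebraMap_residueField_eq_zero.mpr hm), hg⟩

theorem isOpen_cellLocus (η : rigidPic c ε t) : IsOpen (cellLocus M η) := by
  rw [isOpen_iff_forall_mem_open]
  intro p hp
  obtain ⟨i, P, rfl⟩ : ∃ i P, T.affineOpenCover.f i P = p :=
    ⟨_, T.affineOpenCover.covers p⟩
  obtain ⟨φ, hφ⟩ := exists_algebra_eq_specAlg (k := k) (T.affineOpenCover.f i ≫ t)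
  let A : Type u := T.affineOpenCover.X i
  let alg : Algebra k A := φ.toAlgebra
  let j : SchemeHomOver (specAlg k A) t := ⟨T.affineOpenCover.f i, hφ⟩
  obtain ⟨ι, z, F, hz⟩ := exists_frame_of_rigid (M := M) (rigidPicMap c ε j η)
  obtain ⟨a, ha, hg⟩ := exists_locallyGood_of_mem j η F hz P hp
  refine ⟨(T.affineOpenCover.f i) ''
    ((PrimeSpectrum.basicOpen a : Opens (PrimeSpectrum A)) : Set (PrimeSpectrum A)), ?_,
    (T.affineOpenCover.f i).isOpenEmbedding.isOpenMap _ (PrimeSpectrum.basicOpen a).isOpen,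
    ⟨P, ?_, rfl⟩⟩
  swap
  · exact ha
  rintro _ ⟨Q, hQ, rfl⟩
  let ψ : A →ₐ[k] Q.asIdeal.ResidueField := IsScalarTower.toAlgHom k A _
  have h := hg.polar_map ψ (IsUnit.mk0 _ fun h0 =>
    hQ (Ideal.algebraMap_residueField_eq_zero.mp h0))
  rw [← hasPoint_map_iff_polar _ F hz ψ, rigidPicMap_rigidPicMap,
    hasPoint_field_point_iff] at h
  have hpt : (specAlgHom ψ).1 (IsLocalRing.closedPoint Q.asIdeal.ResidueField) = Q := by
    refine PrimeSpectrum.ext ?_
    change Ideal.comap (algebraMap A Q.asIdeal.ResidueField)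
      (IsLocalRing.maximalIdeal Q.asIdeal.ResidueField) = Q.asIdeal
    rw [show IsLocalRing.maximalIdeal Q.asIdeal.ResidueField = ⊥ from
      IsLocalRing.isField_iff_maximalIdeal_eq.mp (Field.toIsField _)]
    exact Ideal.ker_algebraMap_residueField _
  change j.1 ((specAlgHom ψ).1 _) ∈ _ at h
  rwa [hpt] at h

/-- A class comes from the big cell iff the base lands in the locus. -/
theorem hasPoint_iff_range_subset (η : rigidPic c ε t) {T' : Scheme.{u}}
    {t' : T' ⟶ Spec (CommRingCat.of k)} (g : SchemeHomOver t' t) :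
    HasPoint M t' (rigidPicMap c ε g η) ↔ Set.range g.1 ⊆ cellLocus M η := by
  constructor
  · rintro h _ ⟨q, rfl⟩
    obtain ⟨φ, hφ⟩ := exists_algebra_eq_specAlg (k := k) (T'.fromSpecResidueField q ≫ t')
    let alg : Algebra k (T'.residueField q) := φ.toAlgebra
    let r : SchemeHomOver (specAlg k (T'.residueField q)) t' := ⟨T'.fromSpecResidueField q, hφ⟩
    have h1 := h.map M r
    rw [rigidPicMap_rigidPicMap, hasPoint_field_point_iff] at h1
    exact (congrArg g.1 (T'.fromSpecResidueField_apply q _)) ▸ h1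
  · intro h
    refine hasPoint_of_cover M _ T'.affineOpenCover.openCover fun (i : T'.affineOpenCover.I₀) => ?_
    obtain ⟨φ, hφ⟩ := exists_algebra_eq_specAlg (k := k) (T'.affineOpenCover.f i ≫ t')
    let A : Type u := T'.affineOpenCover.X i
    let alg : Algebra k A := φ.toAlgebra
    let j : SchemeHomOver (specAlg k A) t' := ⟨T'.affineOpenCover.f i, hφ⟩
    let gid : SchemeHomOver (specAlg k A) (T'.affineOpenCover.f i ≫ t') :=
      ⟨𝟙 _, (Category.id_comp _).trans hφ⟩
    set jg := RelPicard.postComp g j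
    obtain ⟨ι, z, F, hz⟩ := exists_frame_of_rigid (M := M) (rigidPicMap c ε jg η)
    have hpol : Expansion.Polar F.lattice.W := by
      refine Expansion.Lattice.polar_of_span (L := F.lattice) ?_
      by_contra hne
      obtain ⟨P, hP, hle⟩ := Ideal.exists_le_maximal _ hne
      obtain ⟨a, ha, hg⟩ := exists_locallyGood_of_mem jg η F hz ⟨P, hP.isPrime⟩
        (h ⟨_, rfl⟩)
      exact ha (hle (Ideal.subset_span hg))
    rw [F.lattice_W] at hpol
    obtain ⟨W, hW⟩ := exists_hasCell_of_polar F hpol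
    have hjg : HasPoint M (specAlg k A) (rigidPicMap c ε jg η) :=
      (hasPoint_iff_hasCell M _).mpr ⟨W, hz ▸ hW⟩
    change HasPoint M (T'.affineOpenCover.f i ≫ t')
      (rigidPicMap c ε ⟨T'.affineOpenCover.f i, rfl⟩ (rigidPicMap c ε g η))
    rw [← hasPoint_congr M hφ _ gid rfl, rigidPicMap_rigidPicMap, rigidPicMap_rigidPicMap]
    refine (congrArg (HasPoint M _)
      (congrFun (congrArg DFunLike.coe (rigidPicMap_congr c ε ?_)) η)).mpr hjg
    change (𝟙 _ ≫ T'.affineOpenCover.f i) ≫ g.1 = T'.affineOpenCover.f i ≫ g.1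
    rw [Category.id_comp]

end Fermat.Agent.Jac
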