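import Fermat.Agent.Jac.Geom.CellBundle
import Fermat.Agent.Jac.Rigid.Sheaf
import Fermat.Agent.Jac.BigCell.Smooth

/-!
The big cell as a chart of rigidified Picard classes: the universal class, classification over
affine bases, and the criterion over affine bases.
-/

set_option autoImplicit false
set_option linter.unusedVariables false

noncomputable section

open CategoryTheory CategoryTheory.Limits AlgebraicGeometry TopologicalSpace Opposite NeronModelInfra
open AlgebraicGeometry.RelPicard
open scoped TensorProduct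

attribute [local instance 2000] HahnSeries.instAlgebra

namespace Fermat.Agent.Jac

universe u

namespace Expansion

variable {A : Type u} [CommRing A]

/-- The polar property is unchanged by an invertible power series. -/
theorem Polar.of_scale {W W' : Submodule A (LaurentSeries A)} (h : Polar W) {p : PowerSeries A}
    (hp : IsUnit p) (hmem : ∀ w ∈ W, HahnSeries.ofPowerSeries ℤ A p * w ∈ W')
    (hmem' : ∀ v ∈ W', ∃ w ∈ W, HahnSeries.ofPowerSeries ℤ A p * w = v) : Polar W' := by
  obtain ⟨q, hq⟩ := hp.exists_left_inv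
  obtain ⟨b, hb⟩ := (PowerSeries.isUnit_iff_constantCoeff.mp hp).exists_left_inv
  refine ⟨fun n => ?_, fun v hv hv0 => ?_⟩
  · induction n using Nat.strong_induction_on with
    | _ n IH =>
      obtain ⟨w, hw, hw0⟩ := h.1 n
      have hwp : PoleLE w n := fun i hi => by rw [hw0 i (by omega), if_neg (by omega)]
      set v := b • (HahnSeries.ofPowerSeries ℤ A p * w)
      have hvp : PoleLE v n :=
        (((poleLE_ofPowerSeries p).mul hwp).mono (by omega)).smul b
      have hvl : v.coeff (-(n : ℤ)) = 1 := by
        have := coeff_mul_bottom (poleLE_ofPowerSeries p) hwp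
        rw [zero_add, neg_zero, ← Nat.cast_zero, HahnSeries.ofPowerSeries_apply_coeff,
          PowerSeries.coeff_zero_eq_constantCoeff_apply, hw0 _ (by omega), if_pos rfl, mul_one]
          at this
        simp only [v, HahnSeries.coeff_smul, this, smul_eq_mul, hb]
      choose e he hec using IH
      refine ⟨v - ∑ j : Fin n, v.coeff (-(j : ℤ)) • e j j.2,
        sub_mem (W'.smul_mem _ (hmem w hw)) (sum_mem fun j _ => W'.smul_mem _ (he j j.2)),
        fun i hi => ?_⟩
      simp only [HahnSeries.coeff_sub, HahnSeries.coeff_sum, HahnSeries.coeff_smul, smul_eq_mul,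
        hec _ _ i hi, mul_ite, mul_zero, mul_one]
      rcases lt_trichotomy i (-(n : ℤ)) with h1 | rfl | h1
      · rw [hvp i h1, if_neg (by omega), Finset.sum_eq_zero, sub_zero]
        intro j _
        rw [if_neg (by omega)]
      · rw [hvl, if_pos rfl, Finset.sum_eq_zero, sub_zero]
        intro j _
        rw [if_neg (by omega)]
      · rw [if_neg (by omega),
          Finset.sum_eq_single_of_mem (⟨(-i).toNat, by omega⟩ : Fin n) (Finset.mem_univ _)]
        · simp only [show -(((-i).toNat : ℕ) : ℤ) = i by omega, if_true, sub_self]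
        · intro j _ hj
          rw [if_neg fun e' => hj (Fin.ext (by simp only; omega))]
  · obtain ⟨w, hw, rfl⟩ := hmem' v hv
    have hv1 : PoleLE (HahnSeries.ofPowerSeries ℤ A p * w) (-1) := fun i hi => hv0 i (by omega)
    have hwz : w = 0 := h.2 w hw fun i hi => by
      have := ((poleLE_ofPowerSeries q).mul hv1) i (by omega)
      rwa [← mul_assoc, ← map_mul, hq, map_one, one_mul] at this
    rw [hwz, mul_zero]

end Expansion

variable {k : Type u} [Field k] {C : Scheme.{u}} {c : C ⟶ Spec (CommRingCat.of k)}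
  {ε : SchemeHomOver (𝟙 (Spec (CommRingCat.of k))) c}

/-- The polar property does not depend on the frame. -/
theorem polar_image_of_rel {M : CurveModel c ε} {A : Type u} [CommRing A] [Algebra k A]
    {ι κ : Type u} {z : Cocycle (curveOver c A) ι} {z' : Cocycle (curveOver c A) κ} (F : Frame M z)
    (F' : Frame M z') (h : Pic.mk z = Pic.mk z') (hp : Expansion.Polar F.image) :
    Expansion.Polar F'.image := by
  obtain ⟨e⟩ := Pic.mk_eq_mk_iff.mp h
  rw [← F.image_transport e] at hp
  obtain ⟨p, hpu, hs⟩ := (F.transport e).exists_scale F'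
  refine hp.of_scale hpu (fun w hw => ?_) fun v hv => ?_
  · obtain ⟨x, rfl⟩ := hw
    exact ⟨x, hs x⟩
  · obtain ⟨x, rfl⟩ := hv
    exact ⟨_, ⟨x, rfl⟩, (hs x).symm⟩

/-- A morphism over `Spec k` between affine schemes comes from an algebra map. -/
theorem exists_specAlgHom_eq {A B : Type u} [CommRing A] [Algebra k A] [CommRing B] [Algebra k B]
    (g : SchemeHomOver (specAlg k B) (specAlg k A)) : ∃ φ : A →ₐ[k] B, specAlgHom φ = g := by
  obtain ⟨f, hf⟩ := Spec.map_surjective g.1
  have h : CommRingCat.ofHom (algebraMap k A) ≫ f = CommRingCat.ofHom (algebraMap k B) := by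
    apply Spec.map_injective
    rw [Spec.map_comp, hf]
    exact g.2
  refine ⟨{ f.hom with commutes' := fun r => ?_ }, Subtype.ext ?_⟩
  · exact ConcreteCategory.congr_hom h r
  · exact hf

variable (M : CurveModel c ε)

/-- The coordinate ring of the big cell of a curve model. -/
abbrev CurveModel.BigCell : Type u := Expansion.CellRing M.expansion

/-- The universal class over the big cell. -/
def CurveModel.cellClass : rigidPic c ε (specAlg k M.BigCell) :=
  ⟨(exists_hasCell M (Expansion.univCell M.expansion)).choose,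
    (exists_hasCell M (Expansion.univCell M.expansion)).choose_spec.rigid⟩

theorem CurveModel.hasCell_cellClass :
    HasCell M (M.cellClass : Pic (curveOver c M.BigCell)) (Expansion.univCell M.expansion) :=
  (exists_hasCell M (Expansion.univCell M.expansion)).choose_spec

/-- The class comes from the big cell. -/
def HasPoint {T : Scheme.{u}} (t : T ⟶ Spec (CommRingCat.of k)) (η : rigidPic c ε t) : Prop :=
  ∃ g : SchemeHomOver t (specAlg k M.BigCell), rigidPicMap c ε g M.cellClass = η

theorem HasPoint.map {T T' : Scheme.{u}} {t : T ⟶ Spec (CommRingCat.of k)}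
    {t' : T' ⟶ Spec (CommRingCat.of k)} {η : rigidPic c ε t} (h : HasPoint M t η)
    (g : SchemeHomOver t' t) : HasPoint M t' (rigidPicMap c ε g η) := by
  obtain ⟨f, rfl⟩ := h
  exact ⟨RelPicard.postComp f g, (rigidPicMap_rigidPicMap c ε f g M.cellClass).symm⟩

variable {A : Type u} [CommRing A] [Algebra k A]

theorem hasCell_specAlgHom (φ : M.BigCell →ₐ[k] A) :
    HasCell M (rigidPicMap c ε (specAlgHom φ) M.cellClass : Pic (curveOver c A))
      ((Expansion.univCell M.expansion).map φ) :=
  M.hasCell_cellClass.map φ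

theorem hasPoint_iff_hasCell (ξ : rigidPic c ε (specAlg k A)) :
    HasPoint M (specAlg k A) ξ ↔ ∃ W, HasCell M (ξ : Pic (curveOver c A)) W := by
  constructor
  · rintro ⟨g, rfl⟩
    obtain ⟨φ, rfl⟩ := exists_specAlgHom_eq g
    exact ⟨_, hasCell_specAlgHom M φ⟩
  · rintro ⟨W, hW⟩
    refine ⟨specAlgHom (Expansion.cellEquiv.symm W), Subtype.ext ?_⟩
    refine HasCell.unique_class ?_ hW
    have h := hasCell_specAlgHom M (Expansion.cellEquiv.symm W)
    rwa [show (Expansion.univCell M.expansion).map (Expansion.cellEquiv.symm W) = W from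
      Expansion.cellEquiv.apply_symm_apply W] at h

theorem hasPoint_hom_unique_affine {g g' : SchemeHomOver (specAlg k A) (specAlg k M.BigCell)}
    (h : rigidPicMap c ε g M.cellClass = rigidPicMap c ε g' M.cellClass) : g = g' := by
  obtain ⟨φ, rfl⟩ := exists_specAlgHom_eq g
  obtain ⟨ψ, rfl⟩ := exists_specAlgHom_eq g'
  have h1 := hasCell_specAlgHom M φ
  rw [h] at h1
  have h2 := HasCell.unique_cell h1 (hasCell_specAlgHom M ψ)
  rw [Expansion.cellEquiv.injective h2]

variable {M}

theorem exists_frame_of_rigid (ξ : rigidPic c ε (specAlg k A)) :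
    ∃ (ι : Type u) (z : Cocycle (curveOver c A) ι) (F : Frame M z),
      Pic.mk z = (ξ : Pic (curveOver c A)) := by
  obtain ⟨z, hz⟩ := Pic.mk_surjective (ξ : Pic (curveOver c A))
  have hr : Pic.map (M.sigma A) (Pic.mk z) = 1 := hz ▸ mem_rigidPic.mp ξ.2
  obtain ⟨F⟩ := Frame.exists_frame M z hr
  exact ⟨_, z, F, hz⟩

theorem hasPoint_map_iff_polar (ξ : rigidPic c ε (specAlg k A)) {ι : Type u}
    {z : Cocycle (curveOver c A) ι} (F : Frame M z) (hz : Pic.mk z = (ξ : Pic (curveOver c A)))
    {B : Type u} [CommRing B] [Algebra k B] (φ : A →ₐ[k] B) :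
    HasPoint M (specAlg k B) (rigidPicMap c ε (specAlgHom φ) ξ) ↔
      Expansion.Polar (F.lattice.map φ).W := by
  rw [hasPoint_iff_hasCell, ← F.image_map φ]
  have hz' : Pic.mk (z.pull (curveMap c φ)) =
      (rigidPicMap c ε (specAlgHom φ) ξ : Pic (curveOver c B)) := by
    rw [coe_rigidPicMap, ← hz, Pic.map_mk]
  constructor
  · rintro ⟨W, hW⟩
    obtain ⟨κ, z', F', hz'', hp⟩ := hW.polar
    exact polar_image_of_rel F' (F.map φ) (hz''.trans hz'.symm) hp
  · intro hp
    obtain ⟨W, hW⟩ := exists_hasCell_of_polar (F.map φ) hp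
    exact ⟨W, hz' ▸ hW⟩

end Fermat.Agent.Jac
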