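import Fermat.Agent.Jac.Chart.Locus
import Fermat.Agent.Jac.Final.Basic
import Mathlib.AlgebraicGeometry.Sites.Representability

/-!
Rigidified Picard classes are represented by a smooth scheme glued from translates of the big
cell.
-/

set_option autoImplicit false
set_option linter.unusedVariables false

noncomputable section

open CategoryTheory CategoryTheory.Limits AlgebraicGeometry TopologicalSpace Opposite NeronModelInfra
open AlgebraicGeometry.RelPicard
open scoped TensorProduct

attribute [local instance 2000] HahnSeries.instAlgebra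

namespace Fermat.Agent.Jac

universe u

variable {k : Type u} [Field k] {C : Scheme.{u}} {c : C ⟶ Spec (CommRingCat.of k)}
  {ε : SchemeHomOver (𝟙 (Spec (CommRingCat.of k))) c}

variable (c ε) in
/-- The constant rigidified class given by a class on the curve. -/
def twistClass {T : Scheme.{u}} (t : T ⟶ Spec (CommRingCat.of k)) : Pic C →* rigidPic c ε t :=
  (rigidify c ε t).comp (Pic.map (pullback.fst c t))

theorem rigidPicMap_twistClass {T T' : Scheme.{u}} {t : T ⟶ Spec (CommRingCat.of k)}
    {t' : T' ⟶ Spec (CommRingCat.of k)} (g : SchemeHomOver t' t) (N : Pic C) :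
    rigidPicMap c ε g (twistClass c ε t N) = twistClass c ε t' N := by
  change rigidPicMap c ε g (rigidify c ε t _) = rigidify c ε t' _
  rw [rigidPicMap_rigidify, Pic.map_map]
  congr 3
  exact (pullback.lift_fst _ _ _).trans (Category.comp_id _)

variable (M : CurveModel c ε)

/-- The translate of the big cell by a class on the curve, as a point of the functor. -/
def chartPoint (N : Pic C) : (rigidFunctor c ε).obj (op (Spec (CommRingCat.of M.BigCell))) :=
  ⟨specAlg k M.BigCell, M.cellClass * (twistClass c ε _ N)⁻¹⟩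

/-- The chart of the translate. -/
def chartMap (N : Pic C) : yoneda.obj (Spec (CommRingCat.of M.BigCell)) ⟶ rigidFunctor c ε :=
  yonedaEquiv.symm (chartPoint M N)

theorem chartMap_app (N : Pic C) {S : Scheme.{u}} (h : S ⟶ Spec (CommRingCat.of M.BigCell)) :
    (chartMap M N).app (op S) h = (rigidFunctor c ε).map h.op (chartPoint M N) := rfl

/-- The open where a class lies in the translate by `N`. -/
def chartOpen {T : Scheme.{u}} (x : (rigidFunctor c ε).obj (op T)) (N : Pic C) : T.Opens :=
  ⟨cellLocus M (x.2 * twistClass c ε x.1 N), isOpen_cellLocus _⟩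

theorem exists_chartHom {T : Scheme.{u}} (x : (rigidFunctor c ε).obj (op T)) (N : Pic C) :
    ∃ h : (chartOpen M x N).toScheme ⟶ Spec (CommRingCat.of M.BigCell),
      (rigidFunctor c ε).map h.op (chartPoint M N) =
        (rigidFunctor c ε).map (chartOpen M x N).ι.op x := by
  obtain ⟨t, ξ⟩ := x
  set U := chartOpen M (⟨t, ξ⟩ : (rigidFunctor c ε).obj (op T)) N
  obtain ⟨h, hh⟩ := (hasPoint_iff_range_subset (M := M) (ξ * twistClass c ε t N)
    (⟨U.ι, rfl⟩ : SchemeHomOver (U.ι ≫ t) t)).mpr (by
      change Set.range U.ι ⊆ (U : Set T)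
      rw [Scheme.Opens.range_ι])
  refine ⟨h.1, ?_⟩
  rw [rigidFunctor_map, rigidFunctor_map]
  refine rigidPoint_ext c ε h.2 ⟨𝟙 _, (Category.id_comp _).trans h.2⟩ rfl ?_
  rw [rigidPicMap_rigidPicMap]
  have hc := congrFun (congrArg DFunLike.coe (rigidPicMap_congr c ε
    (g := RelPicard.postComp
      (⟨h.1, rfl⟩ : SchemeHomOver (h.1 ≫ (chartPoint M N).1) (chartPoint M N).1)
      (⟨𝟙 _, (Category.id_comp _).trans h.2⟩ :
        SchemeHomOver (U.ι ≫ t) (h.1 ≫ (chartPoint M N).1)))
    (g' := h) (Category.id_comp _))) (chartPoint M N).2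
  refine hc.trans ?_
  change rigidPicMap c ε h (M.cellClass * (twistClass c ε _ N)⁻¹) = _
  rw [map_mul, map_inv, rigidPicMap_twistClass, hh, map_mul, rigidPicMap_twistClass,
    mul_inv_cancel_right]

/-- The translates of the big cell are open in the functor. -/
theorem isOpenImmersion_chartMap (N : Pic C) : IsOpenImmersion.presheaf (chartMap M N) := by
  refine MorphismProperty.relative.of_exists fun T g => ?_
  obtain ⟨x, rfl⟩ := yonedaEquiv.symm.surjective g
  obtain ⟨h, hh⟩ := exists_chartHom M x N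
  refine ⟨(chartOpen M x N).toScheme, yoneda.map h, (chartOpen M x N).ι, ?_, inferInstance⟩
  refine IsPullback.of_forall_isPullback_app fun S => ?_
  obtain ⟨S⟩ := S
  rw [Types.isPullback_iff]
  refine ⟨?_, ?_, ?_⟩
  · ext (a : S ⟶ (chartOpen M x N).toScheme)
    change (rigidFunctor c ε).map (a ≫ h).op (chartPoint M N) =
      (rigidFunctor c ε).map (a ≫ (chartOpen M x N).ι).op x
    rw [op_comp, op_comp, Functor.map_comp_apply, Functor.map_comp_apply, hh]
  · rintro (a : S ⟶ (chartOpen M x N).toScheme) (a' : S ⟶ (chartOpen M x N).toScheme) ⟨-, h2⟩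
    exact (cancel_mono (chartOpen M x N).ι).mp h2
  · rintro (x₂ : S ⟶ Spec (CommRingCat.of M.BigCell)) (x₃ : S ⟶ T) hx
    change (rigidFunctor c ε).map x₂.op (chartPoint M N) = (rigidFunctor c ε).map x₃.op x at hx
    rw [rigidFunctor_map, rigidFunctor_map] at hx
    have hs : x₂ ≫ specAlg k M.BigCell = x₃ ≫ x.1 := congrArg Sigma.fst hx
    let g₂ : SchemeHomOver (x₃ ≫ x.1) (specAlg k M.BigCell) := ⟨x₂, hs⟩
    let g₃ : SchemeHomOver (x₃ ≫ x.1) x.1 := ⟨x₃, rfl⟩
    have h' := rigidPicMap_eq_of_rigidPoint_eq c ε hx (z := x₃ ≫ x.1)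
      ⟨𝟙 S, (Category.id_comp _).trans hs⟩ ⟨𝟙 S, Category.id_comp _⟩ rfl
    rw [rigidPicMap_rigidPicMap, rigidPicMap_rigidPicMap] at h'
    replace h' : rigidPicMap c ε g₂ (chartPoint M N).2 = rigidPicMap c ε g₃ x.2 :=
      (congrFun (congrArg DFunLike.coe (rigidPicMap_congr c ε (Category.id_comp x₂).symm)) _).trans
        (h'.trans
          (congrFun (congrArg DFunLike.coe (rigidPicMap_congr c ε (Category.id_comp x₃))) _))
    change rigidPicMap c ε g₂ (M.cellClass * (twistClass c ε _ N)⁻¹) = _ at h'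
    rw [map_mul, map_inv, rigidPicMap_twistClass] at h'
    have hkey : rigidPicMap c ε g₂ M.cellClass =
        rigidPicMap c ε g₃ (x.2 * twistClass c ε x.1 N) := by
      rw [map_mul, rigidPicMap_twistClass, ← h', inv_mul_cancel_right]
    have hsub : Set.range x₃ ⊆ (chartOpen M x N : Set T) :=
      (hasPoint_iff_range_subset (M := M) _ g₃).mp ⟨g₂, hkey⟩
    have hsub' : Set.range x₃ ⊆ Set.range (chartOpen M x N).ι := by rwa [Scheme.Opens.range_ι]
    refine ⟨IsOpenImmersion.lift (chartOpen M x N).ι x₃ hsub', ?_, IsOpenImmersion.lift_fac _ _ _⟩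
    change IsOpenImmersion.lift (chartOpen M x N).ι x₃ hsub' ≫ h = x₂
    set a := IsOpenImmersion.lift (chartOpen M x N).ι x₃ hsub'
    have ha : a ≫ (chartOpen M x N).ι = x₃ := IsOpenImmersion.lift_fac _ _ _
    have h2 : (rigidFunctor c ε).map (a ≫ h).op (chartPoint M N) =
        (rigidFunctor c ε).map x₃.op x := by
      rw [← ha, op_comp, op_comp, Functor.map_comp_apply, Functor.map_comp_apply, hh]
    rw [rigidFunctor_map, rigidFunctor_map] at h2
    have hs' : (a ≫ h) ≫ specAlg k M.BigCell = x₃ ≫ x.1 := congrArg Sigma.fst h2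
    have h'' := rigidPicMap_eq_of_rigidPoint_eq c ε h2 (z := x₃ ≫ x.1)
      ⟨𝟙 S, (Category.id_comp _).trans hs'⟩ ⟨𝟙 S, Category.id_comp _⟩ rfl
    rw [rigidPicMap_rigidPicMap, rigidPicMap_rigidPicMap] at h''
    replace h'' : rigidPicMap c ε (⟨a ≫ h, hs'⟩ : SchemeHomOver _ (specAlg k M.BigCell))
        (chartPoint M N).2 = rigidPicMap c ε g₃ x.2 :=
      (congrFun (congrArg DFunLike.coe
        (rigidPicMap_congr c ε (Category.id_comp (a ≫ h)).symm)) _).trans
        (h''.trans
          (congrFun (congrArg DFunLike.coe (rigidPicMap_congr c ε (Category.id_comp x₃))) _))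
    change rigidPicMap c ε _ (M.cellClass * (twistClass c ε _ N)⁻¹) = _ at h''
    rw [map_mul, map_inv, rigidPicMap_twistClass, ← h'] at h''
    exact congrArg Subtype.val (hasPoint_hom_unique M (mul_right_cancel h''))

variable (hcov : ∀ (K : Type u) [Field K] [Algebra k K] (ξ : Pic (curveOver c K)),
  ∃ (N : Pic C) (W : Expansion.Cell M.expansion K),
    HasCell M (ξ * Pic.map (pullback.fst c (specAlg k K)) N) W)

include hcov in
theorem exists_mem_chartOpen {T : Scheme.{u}} (x : (rigidFunctor c ε).obj (op T)) (p : T) :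
    ∃ N : Pic C, p ∈ chartOpen M x N := by
  obtain ⟨t, ξ⟩ := x
  obtain ⟨φ, hφ⟩ := exists_algebra_eq_specAlg (k := k) (T.fromSpecResidueField p ≫ t)
  let alg : Algebra k (T.residueField p) := φ.toAlgebra
  let r : SchemeHomOver (specAlg k (T.residueField p)) t := ⟨T.fromSpecResidueField p, hφ⟩
  obtain ⟨N, W, hW⟩ := hcov (T.residueField p) (rigidPicMap c ε r ξ : Pic _)
  refine ⟨N, ?_⟩
  change p ∈ cellLocus M (ξ * twistClass c ε t N)
  have hp : r.1 (IsLocalRing.closedPoint (T.residueField p)) = p :=
    T.fromSpecResidueField_apply p _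
  rw [← hp, ← hasPoint_field_point_iff, map_mul, rigidPicMap_twistClass, hasPoint_iff_hasCell]
  refine ⟨W, ?_⟩
  have hN : Pic.map (pullback.fst c (specAlg k (T.residueField p))) N ∈
      rigidPic c ε (specAlg k (T.residueField p)) := by
    have := mul_mem (inv_mem (rigidPicMap c ε r ξ).2) hW.rigid
    rwa [inv_mul_cancel_left] at this
  have he : (twistClass c ε (specAlg k (T.residueField p)) N : Pic _) =
      Pic.map (pullback.fst c (specAlg k (T.residueField p))) N :=
    congrArg Subtype.val (rigidify_coe c ε _ ⟨_, hN⟩)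
  rw [Subgroup.coe_mul, he]
  exact hW

include hcov in
theorem isLocallySurjective_chartMaps :
    Presheaf.IsLocallySurjective Scheme.zariskiTopology (Sigma.desc (chartMap M)) := by
  refine ⟨fun {T} x => ?_⟩
  choose N hN using exists_mem_chartOpen M hcov x
  let 𝓤 : T.OpenCover := T.openCoverOfIsOpenCover (fun p : T => chartOpen M x (N p))
    (IsOpenCover.mk (top_unique fun p _ => Opens.mem_iSup.mpr ⟨p, hN p⟩))
  refine GrothendieckTopology.superset_covering _ ?_ 𝓤.mem_grothendieckTopology
  rintro Z f ⟨W, a, b, ⟨p⟩, rfl⟩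
  refine Sieve.downward_closed _ ?_ a
  obtain ⟨h, hh⟩ := exists_chartHom M x (N p)
  refine ⟨(Sigma.ι (fun _ : Pic C => yoneda.obj (Spec (CommRingCat.of M.BigCell))) (N p)).app
    (op (chartOpen M x (N p)).toScheme) h, ?_⟩
  have e : Sigma.ι (fun _ : Pic C => yoneda.obj (Spec (CommRingCat.of M.BigCell))) (N p) ≫
      Sigma.desc (chartMap M) = chartMap M (N p) := Sigma.ι_desc _ _
  refine Eq.trans ?_ hh
  rw [← chartMap_app, ← e]
  rfl

/-- The rigidified functor as a sheaf. -/
def chartSheaf : Sheaf Scheme.zariskiTopology (Type u) :=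
  ⟨rigidFunctor c ε, isSheaf_rigidFunctor M⟩

include hcov in
/-- Rigidified classes are represented by a smooth scheme. -/
theorem exists_picScheme : Nonempty (PicScheme c ε) := by
  have hf : ∀ N, IsOpenImmersion.presheaf (chartMap M N) := isOpenImmersion_chartMap M
  have : Presheaf.IsLocallySurjective Scheme.zariskiTopology
      (Sigma.desc (chartMap M) : _ ⟶ (chartSheaf M).1) := isLocallySurjective_chartMaps M hcov
  let G := Scheme.LocalRepresentability.glueData (F := chartSheaf M) hf
  let R := Scheme.LocalRepresentability.representableBy (F := chartSheaf M) (f := chartMap M) hf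
  let x : (rigidFunctor c ε).obj (op G.glued) := R.homEquiv (𝟙 _)
  have hval : ∀ {T : Scheme.{u}} (g : T ⟶ G.glued),
      R.homEquiv g = (rigidFunctor c ε).map g.op x := fun g => by
    conv_lhs => rw [← Category.comp_id g]
    exact R.homEquiv_comp g (𝟙 _)
  have hsmooth : Smooth x.1 := by
    have hsm : Smooth (specAlg k M.BigCell) := by
      rw [specAlg, HasRingHomProperty.Spec_iff (P := @Smooth)]
      exact RingHom.smooth_algebraMap.mpr inferInstance
    refine (IsZariskiLocalAtSource.iff_of_openCover (P := @Smooth) G.openCover).mpr fun N => ?_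
    have h2 : R.homEquiv (Scheme.LocalRepresentability.toGlued (F := chartSheaf M) hf N) =
        chartPoint M N :=
      (Scheme.LocalRepresentability.yonedaGluedToSheaf_app_toGlued (F := chartSheaf M) hf).trans
        (yonedaEquiv.apply_symm_apply _)
    rw [hval] at h2
    have h3 : Scheme.LocalRepresentability.toGlued (F := chartSheaf M) hf N ≫ x.1 =
        specAlg k M.BigCell := congrArg Sigma.fst h2
    exact h3 ▸ hsm
  refine ⟨{ P := G.glued, toBase := x.1, univ := x.2, smooth := hsmooth, bijective := ?_ }⟩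
  intro T t
  constructor
  · intro g g' h
    have hx : (rigidFunctor c ε).map g.1.op x = (rigidFunctor c ε).map g'.1.op x := by
      rw [rigidFunctor_map, rigidFunctor_map]
      refine rigidPoint_ext c ε (g.2.trans g'.2.symm)
        ⟨𝟙 T, (Category.id_comp _).trans (g.2.trans g'.2.symm)⟩ rfl ?_
      have h' := congrArg (rigidPicMap c ε
        (⟨𝟙 T, (Category.id_comp _).trans g'.2.symm⟩ :
          SchemeHomOver (g'.1 ≫ x.1) t)) h
      rw [rigidPicMap_rigidPicMap]
      simp only [rigidPicMap_rigidPicMap] at h'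
      refine Eq.trans ?_ (h'.trans ?_)
      · exact congrFun (congrArg DFunLike.coe (rigidPicMap_congr c ε rfl)) _
      · exact congrFun (congrArg DFunLike.coe (rigidPicMap_congr c ε (Category.id_comp _))) _
    rw [← hval, ← hval] at hx
    exact Subtype.ext (R.homEquiv.injective hx)
  · intro ξ
    let g : T ⟶ G.glued := R.homEquiv.symm (⟨t, ξ⟩ : (rigidFunctor c ε).obj (op T))
    have hg : (rigidFunctor c ε).map g.op x = (⟨t, ξ⟩ : (rigidFunctor c ε).obj (op T)) := by
      rw [← hval]
      exact R.homEquiv.apply_symm_apply _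
    rw [rigidFunctor_map] at hg
    have hgt : g ≫ x.1 = t := congrArg Sigma.fst hg
    refine ⟨⟨g, hgt⟩, ?_⟩
    have h' := rigidPicMap_eq_of_rigidPoint_eq c ε hg (z := t)
      ⟨𝟙 T, (Category.id_comp _).trans hgt⟩ ⟨𝟙 T, Category.id_comp _⟩ rfl
    rw [rigidPicMap_rigidPicMap, rigidPicMap_id c ε
      (⟨𝟙 T, Category.id_comp _⟩ : SchemeHomOver t t) rfl] at h'
    exact (congrFun (congrArg DFunLike.coe
      (rigidPicMap_congr c ε (Category.id_comp g).symm)) _).trans h'

end Fermat.Agent.Jac
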